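import Fermat.Agent.S05.H65.Vieta
import Fermat.Agent.S05.H65.Core

/-!
# The component function near a node, model centred at a 2-torsion point (any residue
characteristic)

Weierstrass model with `a₃ = a₆ = 0` (so `b₄ = 2a₄`, `b₆ = 0`, `b₈ = -a₄²`), `w b₂ = 0`,
`w a₄ = h > 0`, `w 2 ≥ 0`.  Field elements `x₁ x₂ r₁ r₂` related by
* `(r₁ + r₂) (x₁ - x₂)² = x₁x₂(2(x₁+x₂) + b₂) + 2a₄(x₁+x₂)`
* `(r₁ r₂) (x₁ - x₂)² = (x₁x₂ - a₄)²`.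
-/

set_option autoImplicit false

namespace S13H65

open S05H65 S05H65.AVal

variable {K : Type*} [Field K] {G : Type*} [AddCommGroup G] [LinearOrder G] [IsOrderedAddMonoid G]

/-- Basic hypotheses on the parameters of the nodal model centred at a 2-torsion point. -/
structure Core2 (V : AVal K G) (a₄ b₂ : K) (h : G) : Prop where
  h2 : V.Ge (2 : K) 0
  hb₂ : V.Ex b₂ 0
  ha₄ : V.Ex a₄ h
  hh : 0 < h

variable {V : AVal K G} {a₄ b₂ : K} {h : G}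

section Main

variable (C : Core2 V a₄ b₂ h) {x₁ x₂ r₁ r₂ : K}
include C

lemma Core2.ge_four : V.Ge (4 : K) 0 := by
  have := C.h2.mul C.h2
  rw [add_zero] at this
  convert this using 1
  norm_num

/-- `2(x₁+x₂) + b₂` has valuation `≥ m` if `x₁, x₂` have valuation `≥ m` and `m ≤ 0`. -/
lemma Core2.ge_unit {m : G} (hm : m ≤ 0) (g1 : V.Ge x₁ m) (g2 : V.Ge x₂ m) :
    V.Ge (2 * (x₁ + x₂) + b₂) m :=
  ((C.h2.mul (g1.add g2)).mono (by grind)).add (C.hb₂.ge' hm)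

/-- `2(x₁+x₂) + b₂` is a unit if `x₁, x₂` lie in the maximal ideal. -/
lemma Core2.ex_unit (g1 : V.Gt x₁ 0) (g2 : V.Gt x₂ 0) : V.Ex (2 * (x₁ + x₂) + b₂) 0 :=
  C.hb₂.gt_add ((C.h2.mul_gt (g1.add g2)).mono (by grind))

/-- Case (L,L). -/
lemma case2_LL {α₁ α₂ : G} (h1 : V.Ex x₁ α₁) (h2 : V.Ex x₂ α₂) (hα₁ : α₁ ≤ 0) (hα₂ : α₂ ≤ 0)
    (hne : x₁ ≠ x₂)
    (hS : (r₁ + r₂) * (x₁ - x₂) ^ 2 = x₁ * x₂ * (2 * (x₁ + x₂) + b₂) + 2 * a₄ * (x₁ + x₂))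
    (hP : (r₁ * r₂) * (x₁ - x₂) ^ 2 = (x₁ * x₂ - a₄) ^ 2) :
    V.NotM r₁ ∧ V.NotM r₂ := by
  have hh := C.hh
  set m := min α₁ α₂ with hm
  have hd0 : x₁ - x₂ ≠ 0 := sub_ne_zero.mpr hne
  have hdge : V.Ge (x₁ - x₂) m := (h1.ge' (by grind)).sub (h2.ge' (by grind))
  have hd : m ≤ V.w (x₁ - x₂) := hdge.le_of_ne hd0
  have hD : V.Ex ((x₁ - x₂) ^ 2) (V.w (x₁ - x₂) + V.w (x₁ - x₂)) := (ex_of_ne hd0).sq
  have h12 : V.Ex (x₁ * x₂) (α₁ + α₂) := h1.mul h2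
  have hE1 : V.Ex (x₁ * x₂ - a₄) (α₁ + α₂) := h12.sub_gt (C.ha₄.gt' (by grind))
  have hnP : V.Ex ((x₁ * x₂ - a₄) ^ 2) (α₁ + α₂ + (α₁ + α₂)) := hE1.sq
  have hU : V.Ge (2 * (x₁ + x₂) + b₂) m :=
    C.ge_unit (by grind) (h1.ge' (by grind)) (h2.ge' (by grind))
  have hT1 : V.Ge (x₁ * x₂ * (2 * (x₁ + x₂) + b₂)) (α₁ + α₂ + m) := h12.ge.mul hU
  have hT2 : V.Ge (2 * a₄ * (x₁ + x₂)) (0 + h + m) :=
    (C.h2.mul C.ha₄.ge).mul ((h1.ge' (by grind)).add (h2.ge' (by grind)))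
  have hnS : V.Ge (x₁ * x₂ * (2 * (x₁ + x₂) + b₂) + 2 * a₄ * (x₁ + x₂)) (α₁ + α₂ + m) :=
    hT1.add (hT2.mono (by grind))
  have hSe := eq_div_sq hne hS
  have hPe := eq_div_sq hne hP
  have hPi := hnP.div hD
  have hSi := hnS.div hD
  exact vieta_high hSe hPe (hSi.mono (by grind)) hPi (by grind)

/-- Case (L,M). -/
lemma case2_LM {α₁ β : G} (h1 : V.Ex x₁ α₁) (h2 : V.Ex x₂ β) (hα₁ : α₁ ≤ 0) (hβ0 : 0 < β)
    (hβh : β < h) (hne : x₁ ≠ x₂)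
    (hS : (r₁ + r₂) * (x₁ - x₂) ^ 2 = x₁ * x₂ * (2 * (x₁ + x₂) + b₂) + 2 * a₄ * (x₁ + x₂))
    (hP : (r₁ * r₂) * (x₁ - x₂) ^ 2 = (x₁ * x₂ - a₄) ^ 2) :
    V.Ex r₁ β ∧ V.Ex r₂ β := by
  have hh := C.hh
  have hd : V.Ex (x₁ - x₂) α₁ := h1.sub_gt (h2.gt' (by grind))
  have hD : V.Ex ((x₁ - x₂) ^ 2) (α₁ + α₁) := hd.sq
  have h12 : V.Ex (x₁ * x₂) (α₁ + β) := h1.mul h2
  have hE1 : V.Ex (x₁ * x₂ - a₄) (α₁ + β) := h12.sub_gt (C.ha₄.gt' (by grind))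
  have hnP : V.Ex ((x₁ * x₂ - a₄) ^ 2) (α₁ + β + (α₁ + β)) := hE1.sq
  have hU : V.Ge (2 * (x₁ + x₂) + b₂) α₁ :=
    C.ge_unit hα₁ h1.ge (h2.ge' (by grind))
  have hT1 : V.Ge (x₁ * x₂ * (2 * (x₁ + x₂) + b₂)) (α₁ + β + α₁) := h12.ge.mul hU
  have hT2 : V.Ge (2 * a₄ * (x₁ + x₂)) (0 + h + α₁) :=
    (C.h2.mul C.ha₄.ge).mul (h1.ge.add (h2.ge' (by grind)))
  have hnS : V.Ge (x₁ * x₂ * (2 * (x₁ + x₂) + b₂) + 2 * a₄ * (x₁ + x₂)) (α₁ + β + α₁) :=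
    hT1.add (hT2.mono (by grind))
  have hSe := eq_div_sq hne hS
  have hPe := eq_div_sq hne hP
  have hPi := hnP.div hD
  have hSi := hnS.div hD
  exact vieta_eq hSe hPe (hSi.mono (by grind)) (hPi.congr (by grind))

/-- Case (L,R). -/
lemma case2_LR {α₁ : G} (h1 : V.Ex x₁ α₁) (h2 : V.Ge x₂ h) (hα₁ : α₁ ≤ 0) (hne : x₁ ≠ x₂)
    (hS : (r₁ + r₂) * (x₁ - x₂) ^ 2 = x₁ * x₂ * (2 * (x₁ + x₂) + b₂) + 2 * a₄ * (x₁ + x₂))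
    (hP : (r₁ * r₂) * (x₁ - x₂) ^ 2 = (x₁ * x₂ - a₄) ^ 2) :
    V.Ge r₁ h ∧ V.Ge r₂ h := by
  have hh := C.hh
  have hd : V.Ex (x₁ - x₂) α₁ := h1.sub_gt (h2.gt (by grind))
  have hD : V.Ex ((x₁ - x₂) ^ 2) (α₁ + α₁) := hd.sq
  have h12 : V.Ge (x₁ * x₂) (α₁ + h) := h1.ge.mul h2
  have hE1 : V.Ge (x₁ * x₂ - a₄) (α₁ + h) := h12.sub (C.ha₄.ge' (by grind))
  have hnP : V.Ge ((x₁ * x₂ - a₄) ^ 2) (α₁ + h + (α₁ + h)) := hE1.sq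
  have hU : V.Ge (2 * (x₁ + x₂) + b₂) α₁ :=
    C.ge_unit hα₁ h1.ge (h2.mono (by grind))
  have hT1 : V.Ge (x₁ * x₂ * (2 * (x₁ + x₂) + b₂)) (α₁ + h + α₁) := h12.mul hU
  have hT2 : V.Ge (2 * a₄ * (x₁ + x₂)) (0 + h + α₁) :=
    (C.h2.mul C.ha₄.ge).mul (h1.ge.add (h2.mono (by grind)))
  have hnS : V.Ge (x₁ * x₂ * (2 * (x₁ + x₂) + b₂) + 2 * a₄ * (x₁ + x₂)) (α₁ + h + α₁) :=
    hT1.add (hT2.mono (by grind))
  have hSe := eq_div_sq hne hS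
  have hPe := eq_div_sq hne hP
  have hPi := hnP.div hD
  have hSi := hnS.div hD
  exact vieta_low hSe hPe (hSi.mono (by grind)) (hPi.mono (by grind))

/-- Case (M,M) with `α₁ < α₂`. -/
lemma case2_MM_lt {α₁ α₂ : G} (h1 : V.Ex x₁ α₁) (h2 : V.Ex x₂ α₂) (hα₁ : 0 < α₁)
    (hlt : α₁ < α₂) (hα₂ : α₂ < h) (hne : x₁ ≠ x₂)
    (hS : (r₁ + r₂) * (x₁ - x₂) ^ 2 = x₁ * x₂ * (2 * (x₁ + x₂) + b₂) + 2 * a₄ * (x₁ + x₂))
    (hP : (r₁ * r₂) * (x₁ - x₂) ^ 2 = (x₁ * x₂ - a₄) ^ 2) :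
    AVal.Rel h α₁ α₂ (V.cl h r₁) (V.cl h r₂) := by
  have hh := C.hh
  have g1 : V.Gt x₁ 0 := h1.gt' hα₁
  have g2 : V.Gt x₂ 0 := h2.gt' (by grind)
  have hd : V.Ex (x₁ - x₂) α₁ := h1.sub_gt (h2.gt' hlt)
  have hD : V.Ex ((x₁ - x₂) ^ 2) (α₁ + α₁) := hd.sq
  have h12 : V.Ex (x₁ * x₂) (α₁ + α₂) := h1.mul h2
  have hT1 : V.Ex (x₁ * x₂ * (2 * (x₁ + x₂) + b₂)) (α₁ + α₂ + 0) := h12.mul (C.ex_unit g1 g2)
  have hT2 : V.Ge (2 * a₄ * (x₁ + x₂)) (0 + h + α₁) :=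
    (C.h2.mul C.ha₄.ge).mul (h1.ge.add (h2.ge' (by grind)))
  have hnS : V.Ex (x₁ * x₂ * (2 * (x₁ + x₂) + b₂) + 2 * a₄ * (x₁ + x₂)) (α₁ + α₂ + 0) :=
    hT1.add_gt (hT2.gt (by grind))
  have hSe := eq_div_sq hne hS
  have hPe := eq_div_sq hne hP
  have hSi := (hnS.div hD).congr (show α₁ + α₂ + 0 - (α₁ + α₁) = α₂ - α₁ by grind)
  rcases lt_trichotomy (α₁ + α₂) h with hlt' | heq | hgt
  · have hE1 : V.Ex (x₁ * x₂ - a₄) (α₁ + α₂) := h12.sub_gt (C.ha₄.gt' hlt')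
    have hPi := hE1.sq.div hD
    rcases vieta_split hSe hPe hSi hPi (by grind) with ⟨hr1, hr2⟩ | ⟨hr2, hr1⟩
    · rw [cl_of_ex hr1, cl_of_ex hr2]; unfold AVal.Rel; grind
    · rw [cl_of_ex hr1, cl_of_ex hr2]; unfold AVal.Rel; grind
  · have hE1 : V.Ge (x₁ * x₂ - a₄) h := (h12.ge' (by grind)).sub C.ha₄.ge
    have hPi := hE1.sq.div hD
    rcases vieta_split_le hSe hPe hSi hPi (by grind) with ⟨hr1, hr2⟩ | ⟨hr2, hr1⟩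
    · rw [cl_of_ex hr1, cl_of_ge hh (hr2.mono (by grind))]; unfold AVal.Rel; grind
    · rw [cl_of_ge hh (hr1.mono (by grind)), cl_of_ex hr2]; unfold AVal.Rel; grind
  · have hE1 : V.Ex (x₁ * x₂ - a₄) h := C.ha₄.gt_sub (h12.gt' hgt)
    have hPi := hE1.sq.div hD
    rcases vieta_split hSe hPe hSi hPi (by grind) with ⟨hr1, hr2⟩ | ⟨hr2, hr1⟩
    · rw [cl_of_ex hr1, cl_of_ex hr2]; unfold AVal.Rel; grind
    · rw [cl_of_ex hr1, cl_of_ex hr2]; unfold AVal.Rel; grind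

/-- Case (M,M) with `α₁ = α₂`. -/
lemma case2_MM_eq {α : G} (h1 : V.Ex x₁ α) (h2 : V.Ex x₂ α) (hα₁ : 0 < α)
    (hα₂ : α < h) (hne : x₁ ≠ x₂)
    (hS : (r₁ + r₂) * (x₁ - x₂) ^ 2 = x₁ * x₂ * (2 * (x₁ + x₂) + b₂) + 2 * a₄ * (x₁ + x₂))
    (hP : (r₁ * r₂) * (x₁ - x₂) ^ 2 = (x₁ * x₂ - a₄) ^ 2) :
    AVal.Rel h α α (V.cl h r₁) (V.cl h r₂) := by
  have hh := C.hh
  have g1 : V.Gt x₁ 0 := h1.gt' hα₁
  have g2 : V.Gt x₂ 0 := h2.gt' hα₁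
  have hd0 : x₁ - x₂ ≠ 0 := sub_ne_zero.mpr hne
  have hdge : V.Ge (x₁ - x₂) α := h1.ge.sub h2.ge
  have hd : α ≤ V.w (x₁ - x₂) := hdge.le_of_ne hd0
  have hD : V.Ex ((x₁ - x₂) ^ 2) (V.w (x₁ - x₂) + V.w (x₁ - x₂)) := (ex_of_ne hd0).sq
  have h12 : V.Ex (x₁ * x₂) (α + α) := h1.mul h2
  have hT1 : V.Ex (x₁ * x₂ * (2 * (x₁ + x₂) + b₂)) (α + α + 0) := h12.mul (C.ex_unit g1 g2)
  have hT2 : V.Ge (2 * a₄ * (x₁ + x₂)) (0 + h + α) :=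
    (C.h2.mul C.ha₄.ge).mul (h1.ge.add h2.ge)
  have hnS : V.Ex (x₁ * x₂ * (2 * (x₁ + x₂) + b₂) + 2 * a₄ * (x₁ + x₂)) (α + α + 0) :=
    hT1.add_gt (hT2.gt (by grind))
  have hSe := eq_div_sq hne hS
  have hPe := eq_div_sq hne hP
  have hSi := hnS.div hD
  rcases lt_trichotomy (α + α) h with hlt' | heq | hgt
  · have hE1 : V.Ex (x₁ * x₂ - a₄) (α + α) := h12.sub_gt (C.ha₄.gt' hlt')
    have hPi := hE1.sq.div hD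
    rcases vieta_split hSe hPe hSi hPi (by grind) with ⟨hr1, hr2⟩ | ⟨hr2, hr1⟩
    · rw [cl_of_ex hr1, cl_of_ex hr2]; unfold AVal.Rel; grind
    · rw [cl_of_ex hr1, cl_of_ex hr2]; unfold AVal.Rel; grind
  · have hE1 : V.Ge (x₁ * x₂ - a₄) h := (h12.ge' (by grind)).sub C.ha₄.ge
    have hPi := hE1.sq.div hD
    rcases vieta_split_le hSe hPe hSi hPi (by grind) with ⟨hr1, hr2⟩ | ⟨hr2, hr1⟩
    · rw [cl_of_ex hr1, cl_of_ge hh (hr2.mono (by grind))]; unfold AVal.Rel; grind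
    · rw [cl_of_ge hh (hr1.mono (by grind)), cl_of_ex hr2]; unfold AVal.Rel; grind
  · have hE1 : V.Ex (x₁ * x₂ - a₄) h := C.ha₄.gt_sub (h12.gt' hgt)
    have hPi := hE1.sq.div hD
    rcases vieta_split hSe hPe hSi hPi (by grind) with ⟨hr1, hr2⟩ | ⟨hr2, hr1⟩
    · rw [cl_of_ex hr1, cl_of_ex hr2]; unfold AVal.Rel; grind
    · rw [cl_of_ex hr1, cl_of_ex hr2]; unfold AVal.Rel; grind

/-- Case (M,R). -/
lemma case2_MR {α : G} (h1 : V.Ex x₁ α) (h2 : V.Ge x₂ h) (hα₁ : 0 < α)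
    (hα₂ : α < h) (hne : x₁ ≠ x₂)
    (hS : (r₁ + r₂) * (x₁ - x₂) ^ 2 = x₁ * x₂ * (2 * (x₁ + x₂) + b₂) + 2 * a₄ * (x₁ + x₂))
    (hP : (r₁ * r₂) * (x₁ - x₂) ^ 2 = (x₁ * x₂ - a₄) ^ 2) :
    V.Ex r₁ (h - α) ∧ V.Ex r₂ (h - α) := by
  have hh := C.hh
  have g1 : V.Gt x₁ 0 := h1.gt' hα₁
  have g2 : V.Gt x₂ 0 := h2.gt hh
  have hd : V.Ex (x₁ - x₂) α := h1.sub_gt (h2.gt hα₂)
  have hD : V.Ex ((x₁ - x₂) ^ 2) (α + α) := hd.sq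
  have h12 : V.Ge (x₁ * x₂) (α + h) := h1.ge.mul h2
  have hE1 : V.Ex (x₁ * x₂ - a₄) h := C.ha₄.gt_sub (h12.gt (by grind))
  have hT1 : V.Ge (x₁ * x₂ * (2 * (x₁ + x₂) + b₂)) (α + h + 0) := h12.mul (C.ex_unit g1 g2).ge
  have hT2 : V.Ge (2 * a₄ * (x₁ + x₂)) (0 + h + α) :=
    (C.h2.mul C.ha₄.ge).mul (h1.ge.add (h2.mono (by grind)))
  have hnS : V.Ge (x₁ * x₂ * (2 * (x₁ + x₂) + b₂) + 2 * a₄ * (x₁ + x₂)) (α + h) :=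
    (hT1.mono (by grind)).add (hT2.mono (by grind))
  have hSe := eq_div_sq hne hS
  have hPe := eq_div_sq hne hP
  have hSi := hnS.div hD
  have hPi := hE1.sq.div hD
  exact vieta_eq hSe hPe (hSi.mono (by grind)) (hPi.congr (by grind))

/-- Case (R,R). -/
lemma case2_RR (h1 : V.Ge x₁ h) (h2 : V.Ge x₂ h) (hne : x₁ ≠ x₂)
    (hS : (r₁ + r₂) * (x₁ - x₂) ^ 2 = x₁ * x₂ * (2 * (x₁ + x₂) + b₂) + 2 * a₄ * (x₁ + x₂))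
    (hP : (r₁ * r₂) * (x₁ - x₂) ^ 2 = (x₁ * x₂ - a₄) ^ 2) :
    V.NotM r₁ ∧ V.NotM r₂ := by
  have hh := C.hh
  have g1 : V.Gt x₁ 0 := h1.gt hh
  have g2 : V.Gt x₂ 0 := h2.gt hh
  have hd0 : x₁ - x₂ ≠ 0 := sub_ne_zero.mpr hne
  have hdge : V.Ge (x₁ - x₂) h := h1.sub h2
  have hd : h ≤ V.w (x₁ - x₂) := hdge.le_of_ne hd0
  have hD : V.Ex ((x₁ - x₂) ^ 2) (V.w (x₁ - x₂) + V.w (x₁ - x₂)) := (ex_of_ne hd0).sq
  have h12 : V.Ge (x₁ * x₂) (h + h) := h1.mul h2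
  have hE1 : V.Ex (x₁ * x₂ - a₄) h := C.ha₄.gt_sub (h12.gt (by grind))
  have hT1 : V.Ge (x₁ * x₂ * (2 * (x₁ + x₂) + b₂)) (h + h + 0) := h12.mul (C.ex_unit g1 g2).ge
  have hT2 : V.Ge (2 * a₄ * (x₁ + x₂)) (0 + h + h) :=
    (C.h2.mul C.ha₄.ge).mul (h1.add h2)
  have hnS : V.Ge (x₁ * x₂ * (2 * (x₁ + x₂) + b₂) + 2 * a₄ * (x₁ + x₂)) (h + h) :=
    (hT1.mono (by grind)).add (hT2.mono (by grind))
  have hSe := eq_div_sq hne hS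
  have hPe := eq_div_sq hne hP
  have hSi := hnS.div hD
  have hPi := hE1.sq.div hD
  exact vieta_high hSe hPe (hSi.mono (by grind)) hPi (by grind)

/-- The main relation for two points with distinct `x`-coordinates. -/
theorem main_rel2 (hne : x₁ ≠ x₂)
    (hS : (r₁ + r₂) * (x₁ - x₂) ^ 2 = x₁ * x₂ * (2 * (x₁ + x₂) + b₂) + 2 * a₄ * (x₁ + x₂))
    (hP : (r₁ * r₂) * (x₁ - x₂) ^ 2 = (x₁ * x₂ - a₄) ^ 2) :
    AVal.Rel h (V.cl h x₁) (V.cl h x₂) (V.cl h r₁) (V.cl h r₂) := by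
  have hh := C.hh
  have hS' : (r₁ + r₂) * (x₂ - x₁) ^ 2
      = x₂ * x₁ * (2 * (x₂ + x₁) + b₂) + 2 * a₄ * (x₂ + x₁) := by
    rw [show (x₂ - x₁) ^ 2 = (x₁ - x₂) ^ 2 by ring, hS]; ring
  have hP' : (r₁ * r₂) * (x₂ - x₁) ^ 2 = (x₂ * x₁ - a₄) ^ 2 := by
    rw [show (x₂ - x₁) ^ 2 = (x₁ - x₂) ^ 2 by ring, hP]; ring
  rcases regime V h x₁ with ⟨α₁, h1, hα₁⟩ | ⟨α₁, h1, hα₁, hα₁'⟩ | h1 <;>
  rcases regime V h x₂ with ⟨α₂, h2, hα₂⟩ | ⟨α₂, h2, hα₂, hα₂'⟩ | h2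
  · obtain ⟨hr1, hr2⟩ := case2_LL C h1 h2 hα₁ hα₂ hne hS hP
    rw [cl_of_ex h1, cl_of_ex h2, cl_of_notM hh hr1, cl_of_notM hh hr2]
    unfold AVal.Rel; grind
  · obtain ⟨hr1, hr2⟩ := case2_LM C h1 h2 hα₁ hα₂ hα₂' hne hS hP
    rw [cl_of_ex h1, cl_of_ex h2, cl_of_ex hr1, cl_of_ex hr2]
    unfold AVal.Rel; grind
  · obtain ⟨hr1, hr2⟩ := case2_LR C h1 h2 hα₁ hne hS hP
    rw [cl_of_ex h1, cl_of_ge hh h2, cl_of_ge hh hr1, cl_of_ge hh hr2]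
    unfold AVal.Rel; grind
  · obtain ⟨hr1, hr2⟩ := case2_LM C h2 h1 hα₂ hα₁ hα₁' hne.symm hS' hP'
    rw [cl_of_ex h1, cl_of_ex h2, cl_of_ex hr1, cl_of_ex hr2]
    unfold AVal.Rel; grind
  · rcases lt_trichotomy α₁ α₂ with hlt | heq | hgt
    · have := case2_MM_lt C h1 h2 hα₁ hlt hα₂' hne hS hP
      rw [cl_of_ex h1, cl_of_ex h2]
      unfold AVal.Rel at this ⊢; grind
    · subst heq
      have := case2_MM_eq C h1 h2 hα₁ hα₁' hne hS hP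
      rw [cl_of_ex h1, cl_of_ex h2]
      unfold AVal.Rel at this ⊢; grind
    · have := case2_MM_lt C h2 h1 hα₂ hgt hα₁' hne.symm hS' hP'
      rw [cl_of_ex h1, cl_of_ex h2]
      unfold AVal.Rel at this ⊢; grind
  · obtain ⟨hr1, hr2⟩ := case2_MR C h1 h2 hα₁ hα₁' hne hS hP
    rw [cl_of_ex h1, cl_of_ge hh h2, cl_of_ex hr1, cl_of_ex hr2]
    unfold AVal.Rel; grind
  · obtain ⟨hr1, hr2⟩ := case2_LR C h2 h1 hα₂ hne.symm hS' hP'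
    rw [cl_of_ge hh h1, cl_of_ex h2, cl_of_ge hh hr1, cl_of_ge hh hr2]
    unfold AVal.Rel; grind
  · obtain ⟨hr1, hr2⟩ := case2_MR C h2 h1 hα₂ hα₂' hne.symm hS' hP'
    rw [cl_of_ge hh h1, cl_of_ex h2, cl_of_ex hr1, cl_of_ex hr2]
    unfold AVal.Rel; grind
  · obtain ⟨hr1, hr2⟩ := case2_RR C h1 h2 hne hS hP
    rw [cl_of_ge hh h1, cl_of_ge hh h2, cl_of_notM hh hr1, cl_of_notM hh hr2]
    unfold AVal.Rel; grind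

/-- Doubling. -/
theorem dbl_rel2 {x r : K} (hden : x * (4 * x ^ 2 + b₂ * x + 4 * a₄) ≠ 0)
    (hr : r * (x * (4 * x ^ 2 + b₂ * x + 4 * a₄)) = (x ^ 2 - a₄) ^ 2) :
    V.cl h r = min (V.cl h x + V.cl h x) (h + h - V.cl h x - V.cl h x) := by
  have hh := C.hh
  have hx0 : x ≠ 0 := left_ne_zero_of_mul hden
  have hq0 : 4 * x ^ 2 + b₂ * x + 4 * a₄ ≠ 0 := right_ne_zero_of_mul hden
  have hre : r = (x ^ 2 - a₄) ^ 2 / (x * (4 * x ^ 2 + b₂ * x + 4 * a₄)) := by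
    rw [← hr, mul_div_cancel_right₀ _ hden]
  have hq : V.Ex (4 * x ^ 2 + b₂ * x + 4 * a₄) (V.w (4 * x ^ 2 + b₂ * x + 4 * a₄)) :=
    ex_of_ne hq0
  rcases regime V h x with ⟨α, h1, hα⟩ | ⟨α, h1, hα, hα'⟩ | h1
  · -- L
    have hE1 : V.Ex (x ^ 2 - a₄) (α + α) := h1.sq.sub_gt (C.ha₄.gt' (by grind))
    have hqge : V.Ge (4 * x ^ 2 + b₂ * x + 4 * a₄) (α + α) :=
      (((C.ge_four.mul h1.sq.ge).mono (by grind)).add ((C.hb₂.mul h1).ge' (by grind))).add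
        ((C.ge_four.mul C.ha₄.ge).mono (by grind))
    have hqle := hqge.le_of_ne hq0
    have hrr := hE1.sq.div (h1.mul hq)
    rw [← hre] at hrr
    rw [cl_of_notM hh (hrr.notM (by grind)), cl_of_ex h1]
    grind
  · -- M
    have hq' : V.Ex (4 * x ^ 2 + b₂ * x + 4 * a₄) α :=
      (((C.hb₂.mul h1).congr (by grind)).gt_add
        ((C.ge_four.mul h1.sq.ge).gt (by grind))).add_gt
        ((C.ge_four.mul C.ha₄.ge).gt (by grind))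
    have hden' := h1.mul hq'
    rcases lt_trichotomy (α + α) h with hlt | heq | hgt
    · have hE1 : V.Ex (x ^ 2 - a₄) (α + α) := h1.sq.sub_gt (C.ha₄.gt' hlt)
      have hrr := hE1.sq.div hden'
      rw [← hre] at hrr
      rw [cl_of_ex hrr, cl_of_ex h1]
      grind
    · have hE1 : V.Ge (x ^ 2 - a₄) h := (h1.sq.ge' (by grind)).sub C.ha₄.ge
      have hrr := hE1.sq.div hden'
      rw [← hre] at hrr
      rw [cl_of_ge hh (hrr.mono (by grind)), cl_of_ex h1]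
      grind
    · have hE1 : V.Ex (x ^ 2 - a₄) h := C.ha₄.gt_sub (h1.sq.gt' hgt)
      have hrr := hE1.sq.div hden'
      rw [← hre] at hrr
      rw [cl_of_ex hrr, cl_of_ex h1]
      grind
  · -- R
    have h1' : V.Ex x (V.w x) := ex_of_ne hx0
    have hxle := h1.le_of_ne hx0
    have hE1 : V.Ex (x ^ 2 - a₄) h := C.ha₄.gt_sub (h1'.sq.gt' (by grind))
    have hqge : V.Ge (4 * x ^ 2 + b₂ * x + 4 * a₄) h :=
      (((C.ge_four.mul h1'.sq.ge).mono (by grind)).add ((C.hb₂.mul h1').ge' (by grind))).add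
        ((C.ge_four.mul C.ha₄.ge).mono (by grind))
    have hqle := hqge.le_of_ne hq0
    have hrr := hE1.sq.div (h1'.mul hq)
    rw [← hre] at hrr
    rw [cl_of_notM hh (hrr.notM (by grind)), cl_of_ge hh h1]
    grind

end Main

end S13H65
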