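import Fermat.Agent.S13.H65.Rho2

/-!
# The branch of a point near the node

For a model `y² + a₁xy = x³ + a₂x² + a₄x` and two points `P, Q` near the node with the same
valuation `0 < α < h` of the `x`-coordinate and on the same branch (`y₁/x₁ ≡ y₂/x₂`), the
difference `P - Q` lies in the identity component.
-/

set_option autoImplicit false

namespace S13H65

open WeierstrassCurve S05H65 S05H65.AVal

variable {K : Type*} [Field K] [DecidableEq K]
  {G : Type*} [AddCommGroup G] [LinearOrder G] [IsOrderedAddMonoid G]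
  {W : WeierstrassCurve.Affine K} {V : AVal K G} {h : G}

omit [DecidableEq K] in
/-- The slope `τ = y/x` of a point near the node is integral. -/
lemma branch_integral (N : Centred W) (C : Core2 V W.a₄ W.b₂ h)
    (ha₁ : V.Ge W.a₁ 0) (ha₂ : V.Ge W.a₂ 0) {x y : K} {α : G}
    (hE : W.Equation x y) (hx : V.Ex x α) (hα : 0 < α) (hα' : α < h) : V.Ge (y / x) 0 := by
  have hx0 := hx.1
  rw [Affine.equation_iff, N.ha₃, N.ha₆] at hE
  have key : (y / x) ^ 2 + W.a₁ * (y / x) = x + W.a₂ + W.a₄ / x := by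
    field_simp
    linear_combination hE
  have hc : V.Ge (x + W.a₂ + W.a₄ / x) 0 :=
    ((hx.ge' hα.le).add ha₂).add ((C.ha₄.div hx).ge' (by grind))
  by_contra hcon
  have ht0 : y / x ≠ 0 := fun h0 => hcon (Or.inl h0)
  have htlt : V.w (y / x) < 0 := by
    by_contra h'
    exact hcon (Or.inr (not_lt.mp h'))
  have ht : V.Ex (y / x) (V.w (y / x)) := ex_of_ne ht0
  have h1 : V.Ex ((y / x) ^ 2 + W.a₁ * (y / x)) (V.w (y / x) + V.w (y / x)) :=
    ht.sq.add_gt ((ha₁.mul ht.ge).gt (by grind))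
  rw [key] at h1
  have := h1.le_of_ge hc
  grind

omit [DecidableEq K] in
/-- `θ = 2τ + a₁` is a unit. -/
lemma branch_theta (N : Centred W) (C : Core2 V W.a₄ W.b₂ h)
    {x y : K} {α : G}
    (hE : W.Equation x y) (hx : V.Ex x α) (hα : 0 < α) (hα' : α < h) :
    V.Ex (2 * (y / x) + W.a₁) 0 := by
  have hx0 := hx.1
  rw [Affine.equation_iff, N.ha₃, N.ha₆] at hE
  have key : (2 * (y / x) + W.a₁) ^ 2 = W.b₂ + 4 * (x + W.a₄ / x) := by
    simp only [WeierstrassCurve.b₂]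
    field_simp
    linear_combination 4 * hE
  have hsq : V.Ex ((2 * (y / x) + W.a₁) ^ 2) 0 := by
    rw [key]
    have hk : V.Gt (x + W.a₄ / x) 0 := (hx.gt' hα).add ((C.ha₄.div hx).gt' (by grind))
    exact C.hb₂.add_gt ((C.ge_four.mul_gt hk).mono (by grind))
  have h0 : 2 * (y / x) + W.a₁ ≠ 0 := by
    intro h0
    rw [h0] at hsq
    exact hsq.1 (by simp)
  have := (ex_of_ne h0).sq.unique hsq
  exact ⟨h0, by grind⟩

/-- Two points near the node with the same valuation of `x` and on the same branch differ by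
a point of the identity component. -/
theorem same_branch_sub (N : Centred W) (C : Core2 V W.a₄ W.b₂ h)
    {x₁ y₁ x₂ y₂ : K} {α : G}
    (h₁ : W.Nonsingular x₁ y₁) (h₂ : W.Nonsingular x₂ y₂)
    (hx₁ : V.Ex x₁ α) (hx₂ : V.Ex x₂ α) (hα : 0 < α) (hα' : α < h)
    (hbr : V.Gt (y₁ / x₁ - y₂ / x₂) 0) :
    Affine.Point.some x₁ y₁ h₁ - Affine.Point.some x₂ y₂ h₂ = 0 ∨
      V.NotM (px (Affine.Point.some x₁ y₁ h₁ - Affine.Point.some x₂ y₂ h₂)) := by
  have hh := C.hh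
  have hx₁0 := hx₁.1
  have hx₂0 := hx₂.1
  have hθ₁ := branch_theta N C h₁.1 hx₁ hα hα'
  have hθ₂ := branch_theta N C h₂.1 hx₂ hα hα'
  have hE₁ := h₁.1
  have hE₂ := h₂.1
  rw [Affine.equation_iff, N.ha₃, N.ha₆] at hE₁ hE₂
  by_cases hx : x₁ = x₂
  · -- same x-coordinate: the points are equal
    left
    subst hx
    rcases Affine.Y_eq_of_X_eq h₁.1 h₂.1 rfl with hy | hy
    · subst hy
      exact sub_self _
    · exfalso
      -- y₁ = negY x₁ y₂ contradicts the branch condition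
      have : y₁ / x₁ - y₂ / x₁ = -(2 * (y₂ / x₁) + W.a₁) := by
        rw [hy, Affine.negY, N.ha₃]
        field_simp
        ring
      rw [this] at hbr
      have := hθ₂.neg.not_gt hbr
      exact lt_irrefl _ this
  · right
    rw [sub_eq_add_neg, Affine.Point.neg_some, Affine.Point.add_of_X_ne hx, px_some,
      Affine.slope_of_X_ne hx]
    have hd0 : x₁ - x₂ ≠ 0 := sub_ne_zero.mpr hx
    have hdge : V.Ge (x₁ - x₂) α := hx₁.ge.sub hx₂.ge
    have hd : α ≤ V.w (x₁ - x₂) := hdge.le_of_ne hd0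
    have hD : V.Ex ((x₁ - x₂) ^ 2) (V.w (x₁ - x₂) + V.w (x₁ - x₂)) := (ex_of_ne hd0).sq
    -- the key identity
    have key : W.addX x₁ x₂ ((y₁ - W.negY x₂ y₂) / (x₁ - x₂)) * (x₁ - x₂) ^ 2
        = ((2 * (y₁ / x₁) + W.a₁) - (y₁ / x₁ - y₂ / x₂)) * x₂
            * ((2 * (y₁ / x₁) + W.a₁) * x₁ - (y₁ / x₁ - y₂ / x₂) * x₂)
          + (W.a₄ / x₁ - x₂) * (x₁ - x₂) ^ 2 := by
      simp only [Affine.addX, Affine.negY, N.ha₃]
      field_simp
      linear_combination (x₁ - x₂) ^ 2 * hE₁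
    have hε : V.Ex (((2 * (y₁ / x₁) + W.a₁) - (y₁ / x₁ - y₂ / x₂)) * x₂) (0 + α) :=
      (hθ₁.sub_gt hbr).mul hx₂
    have hε' : V.Ex ((2 * (y₁ / x₁) + W.a₁) * x₁ - (y₁ / x₁ - y₂ / x₂) * x₂) (0 + α) :=
      (hθ₁.mul hx₁).sub_gt ((hbr.mul_ge hx₂.ge).mono (by grind))
    have hrest : V.Gt ((W.a₄ / x₁ - x₂) * (x₁ - x₂) ^ 2)
        (0 + (V.w (x₁ - x₂) + V.w (x₁ - x₂))) :=
      (((C.ha₄.div hx₁).gt' (by grind)).sub (hx₂.gt' hα)).mul_ge hD.ge
    have hnum : V.Ex (W.addX x₁ x₂ ((y₁ - W.negY x₂ y₂) / (x₁ - x₂)) * (x₁ - x₂) ^ 2)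
        (0 + α + (0 + α)) := by
      rw [key]
      exact (hε.mul hε').add_gt (hrest.mono (by grind))
    have hfin := hnum.div hD
    rw [mul_div_cancel_right₀ _ (pow_ne_zero 2 hd0)] at hfin
    exact hfin.notM (by grind)

end S13H65
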