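import Fermat.Agent.S05.H65.Sym
import Fermat.Agent.S05.H65.Translate
import Fermat.Agent.S13.H65.Core2

/-!
# The component function on points of a Weierstrass model with `a₃ = a₆ = 0`
(node at the 2-torsion point `(0,0)`), any residue characteristic.
-/

set_option autoImplicit false

namespace S13H65

open WeierstrassCurve S05H65 S05H65.AVal

variable {K : Type*} [Field K] [DecidableEq K]
  {G : Type*} [AddCommGroup G] [LinearOrder G] [IsOrderedAddMonoid G]
  {W : WeierstrassCurve.Affine K} {V : AVal K G} {h : G}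

/-- The model is centred at the 2-torsion point `(0,0)`. -/
structure Centred (W : WeierstrassCurve.Affine K) : Prop where
  ha₃ : W.a₃ = 0
  ha₆ : W.a₆ = 0

omit [DecidableEq K] in
lemma Centred.b₄ (N : Centred W) : W.b₄ = 2 * W.a₄ := by
  simp [WeierstrassCurve.b₄, N.ha₃]

omit [DecidableEq K] in
lemma Centred.b₆ (N : Centred W) : W.b₆ = 0 := by
  simp [WeierstrassCurve.b₆, N.ha₃, N.ha₆]

omit [DecidableEq K] in
lemma Centred.b₈ (N : Centred W) : W.b₈ = -W.a₄ ^ 2 := by
  simp [WeierstrassCurve.b₈, N.ha₃, N.ha₆]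

lemma Centred.px_sum (N : Centred W) {P Q : W.Point} (hP : P ≠ 0) (hQ : Q ≠ 0)
    (h : px P ≠ px Q) :
    (px (P + Q) + px (P - Q)) * (px P - px Q) ^ 2
      = px P * px Q * (2 * (px P + px Q) + W.b₂) + 2 * W.a₄ * (px P + px Q) := by
  rw [px_add_add_px_sub hP hQ h, N.b₄, N.b₆]
  ring

lemma Centred.px_prod (N : Centred W) {P Q : W.Point} (hP : P ≠ 0) (hQ : Q ≠ 0)
    (h : px P ≠ px Q) :
    (px (P + Q) * px (P - Q)) * (px P - px Q) ^ 2 = (px P * px Q - W.a₄) ^ 2 := by
  rw [px_add_mul_px_sub hP hQ h, N.b₄, N.b₆, N.b₈]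
  ring

omit [DecidableEq K] in
lemma Centred.psi2sq_eq (N : Centred W) (x : K) :
    psi2sq W x = x * (4 * x ^ 2 + W.b₂ * x + 4 * W.a₄) := by
  simp only [psi2sq]
  rw [N.b₄, N.b₆]
  ring

omit [DecidableEq K] in
lemma Centred.dupNum_eq (N : Centred W) (x : K) : dupNum W x = (x ^ 2 - W.a₄) ^ 2 := by
  simp only [dupNum]
  rw [N.b₄, N.b₆, N.b₈]
  ring

/-- The component function. -/
noncomputable def rho2 (V : AVal K G) (h : G) (P : W.Point) : G :=
  if P = 0 then 0 else V.cl h (px P)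

@[simp] lemma rho2_zero : rho2 V h (0 : W.Point) = 0 := by simp [rho2]

lemma rho2_of_ne {P : W.Point} (hP : P ≠ 0) : rho2 V h P = V.cl h (px P) := by
  simp [rho2, hP]

@[simp] lemma rho2_neg (P : W.Point) : rho2 V h (-P) = rho2 V h P := by
  simp [rho2]

lemma rho2_nonneg (hh : 0 < h) (P : W.Point) : 0 ≤ rho2 V h P := by
  unfold rho2
  split_ifs
  · exact le_refl _
  · exact AVal.cl_nonneg hh _

lemma rho2_le (hh : 0 < h) (P : W.Point) : rho2 V h P ≤ h := by
  unfold rho2
  split_ifs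
  · exact hh.le
  · exact AVal.cl_le hh _

/-- `rho2 (P + P) = min (2a) (2h - 2a)` where `a = rho2 P`. -/
theorem rho2_dbl (N : Centred W) (C : Core2 V W.a₄ W.b₂ h) (P : W.Point) :
    rho2 V h (P + P)
      = min (rho2 V h P + rho2 V h P) (h + h - rho2 V h P - rho2 V h P) := by
  have hh := C.hh
  by_cases hP : P = 0
  · subst hP
    simp only [add_zero, rho2_zero]
    grind
  by_cases h2 : P + P = 0
  · rw [h2, rho2_zero, rho2_of_ne hP]
    have h0 := (add_self_eq_zero_iff hP).mp h2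
    rw [N.psi2sq_eq] at h0
    rcases mul_eq_zero.mp h0 with h1 | h1
    · rw [cl_of_ge hh (Or.inl h1)]
      grind
    · -- 4x² + b₂x + 4a₄ = 0 forces w x ≤ 0 or w x ≥ h
      rcases regime V h (px P) with ⟨α, hx, hα⟩ | ⟨α, hx, hα, hα'⟩ | hx
      · rw [cl_of_ex hx]; grind
      · exfalso
        have hq' : V.Ex (4 * px P ^ 2 + W.b₂ * px P + 4 * W.a₄) α :=
          (((C.hb₂.mul hx).congr (by grind)).gt_add
            ((C.ge_four.mul hx.sq.ge).gt (by grind))).add_gt
            ((C.ge_four.mul C.ha₄.ge).gt (by grind))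
        exact hq'.1 h1
      · rw [cl_of_ge hh hx]; grind
  · rw [rho2_of_ne h2, rho2_of_ne hP]
    have hden : px P * (4 * px P ^ 2 + W.b₂ * px P + 4 * W.a₄) ≠ 0 := by
      rw [← N.psi2sq_eq]
      exact fun h0 => h2 ((add_self_eq_zero_iff hP).mpr h0)
    have := px_add_self hP h2
    rw [N.psi2sq_eq, N.dupNum_eq] at this
    exact dbl_rel2 C hden this

/-- The fundamental relation satisfied by the component function. -/
theorem rho2_rel (N : Centred W) (C : Core2 V W.a₄ W.b₂ h) (P Q : W.Point) :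
    AVal.Rel h (rho2 V h P) (rho2 V h Q) (rho2 V h (P + Q)) (rho2 V h (P - Q)) := by
  have hh := C.hh
  by_cases hP : P = 0
  · subst hP
    have h1 := rho2_nonneg (V := V) hh Q
    have h2 := rho2_le (V := V) hh Q
    simp only [zero_add, zero_sub, rho2_neg, rho2_zero]
    unfold AVal.Rel; grind
  by_cases hQ : Q = 0
  · subst hQ
    have h1 := rho2_nonneg (V := V) hh P
    have h2 := rho2_le (V := V) hh P
    simp only [add_zero, sub_zero, rho2_zero]
    unfold AVal.Rel; grind
  by_cases hx : px P = px Q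
  · rcases eq_or_eq_neg_of_px_eq hP hQ hx with rfl | rfl
    · have := rho2_dbl (V := V) N C P
      rw [sub_self, rho2_zero, this]
      unfold AVal.Rel; grind
    · have := rho2_dbl (V := V) N C Q
      rw [neg_add_cancel, rho2_zero, show -Q - Q = -(Q + Q) by abel, rho2_neg, rho2_neg, this]
      unfold AVal.Rel; grind
  · have hadd : P + Q ≠ 0 := add_ne_zero_of_px_ne hx hP hQ
    have hsub : P - Q ≠ 0 := sub_ne_zero_of_px_ne hx
    rw [rho2_of_ne hP, rho2_of_ne hQ, rho2_of_ne hadd, rho2_of_ne hsub]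
    exact main_rel2 C hx (N.px_sum hP hQ hx) (N.px_prod hP hQ hx)

lemma rho2_pairRel (N : Centred W) (C : Core2 V W.a₄ W.b₂ h) :
    S05H27.PairRel (rho2 (W := W) V h) (h + h) := fun P Q => rel_simN (rho2_rel N C P Q)

/-- Torsion points have "rational" component. -/
theorem rho2_torsion (N : Centred W) (C : Core2 V W.a₄ W.b₂ h) (X : W.Point) (p : ℕ)
    (hpX : p • X = 0) : ∃ m : ℤ, p • rho2 V h X = m • (h + h) :=
  S05H27.rho_pow_of_torsion (rho2 (W := W) V h) (h + h) rho2_zero (rho2_pairRel N C) X p hpX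

lemma rho2_eq_zero_imp (hh : 0 < h) {T : W.Point} (h0 : rho2 V h T = 0) :
    T = 0 ∨ V.NotM (px T) := by
  by_cases hT : T = 0
  · exact Or.inl hT
  right
  rw [rho2_of_ne hT] at h0
  by_cases hx : px T = 0
  · rw [cl_of_ge hh (Or.inl hx)] at h0
    exact absurd h0 hh.ne'
  · refine ⟨hx, ?_⟩
    rw [cl_of_ex (ex_of_ne hx)] at h0
    grind

/-- The identity component `{rho2 = 0}` is closed under addition and subtraction. -/
theorem rho2_add_eq_zero (N : Centred W) (C : Core2 V W.a₄ W.b₂ h) {P Q : W.Point}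
    (hP : rho2 V h P = 0) (hQ : rho2 V h Q = 0) :
    rho2 V h (P + Q) = 0 ∧ rho2 V h (P - Q) = 0 := by
  have := rho2_rel N C P Q
  have hh := C.hh
  rw [hP, hQ] at this
  unfold AVal.Rel at this
  grind

end S13H65
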